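import Mathlib

set_option autoImplicit false
set_option linter.style.haveILetI false
set_option linter.unusedSectionVars false

/-!
# Finiteness of the 2-Selmer group of a number field outside a finite set of primes
-/

noncomputable section

namespace Fermat.Agent.WMW

open IsDedekindDomain HeightOneSpectrum FractionalIdeal
open scoped nonZeroDivisors

section Selmer

variable (R K : Type*) [CommRing R] [IsDedekindDomain R] [Field K] [Algebra R K]
  [IsFractionRing R K]

variable {R}

/-- the exponent of `v` in `b` -/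
def cnt (v : HeightOneSpectrum R) (b : Kˣ) : ℤ := count K v (spanSingleton R⁰ (b : K))

variable {K}

lemma cnt_one (v : HeightOneSpectrum R) : cnt K v 1 = 0 := by
  rw [cnt, Units.val_one, spanSingleton_one, count_one]

lemma span_ne_zero (b : Kˣ) : spanSingleton R⁰ (b : K) ≠ 0 :=
  spanSingleton_ne_zero_iff.mpr b.ne_zero

lemma cnt_mul (v : HeightOneSpectrum R) (a b : Kˣ) : cnt K v (a * b) = cnt K v a + cnt K v b := by
  rw [cnt, Units.val_mul, ← spanSingleton_mul_spanSingleton, count_mul K v (span_ne_zero a)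
    (span_ne_zero b)]
  rfl

variable (R K)

/-- elements with even exponents outside `T` -/
def evenOff (T : Set (HeightOneSpectrum R)) : Subgroup Kˣ where
  carrier := {b | ∀ v ∉ T, Even (cnt K v b)}
  one_mem' v _ := by rw [cnt_one]; exact Even.zero
  mul_mem' ha hb v hv := by rw [cnt_mul]; exact (ha v hv).add (hb v hv)
  inv_mem' := by
    intro a ha v hv
    have h := cnt_mul v a a⁻¹
    rw [mul_inv_cancel, cnt_one] at h
    have h2 : cnt K v a⁻¹ = - cnt K v a := by linarith
    rw [h2]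
    exact (ha v hv).neg

/-- squares -/
abbrev sqG (G : Type*) [CommGroup G] : Subgroup G := (powMonoidHom 2 : G →* G).range

/-- images of units -/
def unitsIm : Subgroup Kˣ := (Units.map (algebraMap R K : R →* K)).range

variable {R K}

lemma relIndex_evenOff {T : Set (HeightOneSpectrum R)} (hT : T.Finite) :
    (evenOff R K ∅).relIndex (evenOff R K T) ≠ 0 := by
  classical
  haveI : Finite T := hT
  let φ : Kˣ →* (T → Multiplicative (ZMod 2)) :=
    { toFun := fun b v => Multiplicative.ofAdd ((cnt K v.1 b : ℤ) : ZMod 2)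
      map_one' := by
        funext v
        rw [cnt_one]
        simp
      map_mul' := fun a b => by
        funext v
        rw [Pi.mul_apply, cnt_mul]
        push_cast
        rfl }
  haveI : Finite φ.range := Subtype.finite
  have h1 : φ.ker.index ≠ 0 := by
    rw [Subgroup.index_ker]
    exact Nat.card_pos.ne'
  have h2 : φ.ker.relIndex (evenOff R K T) ≠ 0 := by
    intro h
    exact h1 (Subgroup.index_eq_zero_of_relIndex_eq_zero h)
  have h3 : φ.ker ⊓ evenOff R K T ≤ evenOff R K ∅ := by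
    rintro b ⟨hb, hbT⟩ v -
    by_cases hv : v ∈ T
    · have h4 := congrFun (MonoidHom.mem_ker.mp hb) ⟨v, hv⟩
      have h5 : ((cnt K v b : ℤ) : ZMod 2) = 0 := h4
      rw [ZMod.intCast_zmod_eq_zero_iff_dvd] at h5
      exact even_iff_two_dvd.mpr h5
    · exact hbT v hv
  have h4 := Subgroup.relIndex_dvd_of_le_left (evenOff R K T) h3
  rw [Subgroup.inf_relIndex_right] at h4
  intro h5
  rw [h5] at h4
  exact h2 (Nat.eq_zero_of_zero_dvd h4)

lemma exists_sq_ideal {b : Kˣ} (hb : b ∈ evenOff R K ∅) :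
    ∃ I : (FractionalIdeal R⁰ K)ˣ, I ^ 2 = toPrincipalIdeal R K b := by
  classical
  choose n hn using fun v : HeightOneSpectrum R => hb v (Set.notMem_empty v)
  let J : FractionalIdeal R⁰ K := ∏ᶠ v : HeightOneSpectrum R,
    (v.asIdeal : FractionalIdeal R⁰ K) ^ (n v)
  have hfin := finite_factors (spanSingleton R⁰ (b : K))
  have hfin' : (Function.mulSupport fun v : HeightOneSpectrum R =>
      (v.asIdeal : FractionalIdeal R⁰ K) ^ (n v)).Finite := by
    refine Set.Finite.subset hfin fun v hv h => ?_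
    apply hv
    have h1 : count K v (spanSingleton R⁰ (b : K)) = 0 := h
    have h2 := hn v
    have h3 : cnt K v b = 0 := h1
    have h4 : n v = 0 := by rw [h3] at h2; omega
    change (v.asIdeal : FractionalIdeal R⁰ K) ^ (n v) = 1
    rw [h4, zpow_zero]
  have hJ : J * J = spanSingleton R⁰ (b : K) := by
    rw [← finprod_heightOneSpectrum_factorization' K (span_ne_zero (R := R) b)]
    rw [← finprod_mul_distrib hfin' hfin']
    refine finprod_congr fun v => ?_
    have hv0 : (v.asIdeal : FractionalIdeal R⁰ K) ≠ 0 := coeIdeal_ne_zero.mpr v.ne_bot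
    rw [← zpow_add₀ hv0, ← hn v]
    rfl
  have hJ0 : J ≠ 0 := by
    intro h
    rw [h, zero_mul] at hJ
    exact span_ne_zero (R := R) b hJ.symm
  refine ⟨Units.mk0 J hJ0, ?_⟩
  apply Units.ext
  rw [coe_toPrincipalIdeal, ← hJ, pow_two]
  rfl

lemma relIndex_units [Finite (ClassGroup R)] :
    (unitsIm R K ⊔ sqG Kˣ).relIndex (evenOff R K ∅) ≠ 0 := by
  classical
  haveI : Finite ((FractionalIdeal R⁰ K)ˣ ⧸ (toPrincipalIdeal R K).range) :=
    Finite.of_equiv _ (ClassGroup.equiv (R := R) K).toEquiv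
  choose I hI using fun b : evenOff R K ∅ => exists_sq_ideal b.2
  let U := (unitsIm R K ⊔ sqG Kˣ).subgroupOf (evenOff R K ∅)
  haveI : Finite (evenOff R K ∅ ⧸ U) := by
    refine Finite.of_injective (fun x => (QuotientGroup.mk (I x.out) :
      (FractionalIdeal R⁰ K)ˣ ⧸ (toPrincipalIdeal R K).range)) fun x y hxy => ?_
    rw [← QuotientGroup.out_eq' x, ← QuotientGroup.out_eq' y, QuotientGroup.eq]
    rw [QuotientGroup.eq] at hxy
    obtain ⟨c, hc⟩ := hxy
    have h1 : toPrincipalIdeal R K (c ^ 2) =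
        toPrincipalIdeal R K ((x.out : evenOff R K ∅).1⁻¹ * (y.out : evenOff R K ∅).1) := by
      rw [map_pow, hc, mul_pow, inv_pow, hI, hI, map_mul, map_inv]
    have h2 : toPrincipalIdeal R K
        ((x.out : evenOff R K ∅).1⁻¹ * (y.out : evenOff R K ∅).1 * (c ^ 2)⁻¹) = 1 := by
      rw [map_mul, ← h1, ← map_mul, mul_inv_cancel, map_one]
    rw [Subgroup.mem_subgroupOf]
    set t : Kˣ := (x.out : evenOff R K ∅).1⁻¹ * (y.out : evenOff R K ∅).1 with ht
    -- a unit
    have h3 : ∃ u : Rˣ, Units.map (algebraMap R K : R →* K) u = t * (c ^ 2)⁻¹ := by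
      rw [toPrincipalIdeal_eq_iff] at h2
      have h4 : spanSingleton R⁰ ((t * (c ^ 2)⁻¹ : Kˣ) : K) = spanSingleton R⁰ (1 : K) := by
        rw [h2, spanSingleton_one]; rfl
      obtain ⟨z, hz⟩ := spanSingleton_eq_spanSingleton.mp h4.symm
      refine ⟨z, Units.ext ?_⟩
      rw [← hz, Units.smul_def, Algebra.smul_def, mul_one]
      rfl
    obtain ⟨u, hu⟩ := h3
    have h4 : t = Units.map (algebraMap R K : R →* K) u * c ^ 2 := by
      rw [hu, inv_mul_cancel_right]
    change t ∈ unitsIm R K ⊔ sqG Kˣ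
    rw [h4]
    exact Subgroup.mul_mem_sup ⟨u, rfl⟩ ⟨c, rfl⟩
  have : U.index ≠ 0 := Nat.card_pos.ne'
  exact this

lemma finite_sq_quotient (G : Type*) [CommGroup G] [Group.FG G] : Finite (G ⧸ sqG G) := by
  haveI : Group.FG (G ⧸ sqG G) := QuotientGroup.fg _
  refine CommGroup.finite_of_fg_torsion _ ?_
  intro x
  rw [isOfFinOrder_iff_pow_eq_one]
  refine ⟨2, by norm_num, ?_⟩
  obtain ⟨g, rfl⟩ := QuotientGroup.mk_surjective x
  rw [← QuotientGroup.mk_pow, QuotientGroup.eq_one_iff]
  exact ⟨g, rfl⟩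

lemma relIndex_sq [Group.FG Rˣ] : (sqG Kˣ).relIndex (unitsIm R K ⊔ sqG Kˣ) ≠ 0 := by
  rw [Subgroup.relIndex_sup_right]
  haveI := finite_sq_quotient Rˣ
  let f : Rˣ →* Kˣ := Units.map (algebraMap R K : R →* K)
  have h1 : (sqG Rˣ) ≤ (sqG Kˣ).comap f := by
    rintro _ ⟨u, rfl⟩
    exact ⟨f u, by simp⟩
  have h2 : ((sqG Kˣ).comap f).index ≠ 0 := by
    intro h
    have h3 := Subgroup.index_dvd_of_le h1
    rw [h] at h3
    have h4 : (sqG Rˣ).index ≠ 0 := Nat.card_pos.ne'
    exact h4 (Nat.eq_zero_of_zero_dvd h3)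
  rw [Subgroup.index_comap] at h2
  exact h2

/-- **Finiteness of the Selmer group** -/
theorem relIndex_sq_evenOff [Finite (ClassGroup R)] [Group.FG Rˣ] {T : Set (HeightOneSpectrum R)}
    (hT : T.Finite) : (sqG Kˣ).relIndex (evenOff R K T) ≠ 0 :=
  Subgroup.relIndex_ne_zero_trans
    (Subgroup.relIndex_ne_zero_trans relIndex_sq relIndex_units) (relIndex_evenOff hT)

/-- **Finiteness of the Selmer group** -/
theorem finite_image_evenOff [Finite (ClassGroup R)] [Group.FG Rˣ]
    {T : Set (HeightOneSpectrum R)} (hT : T.Finite) :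
    ((QuotientGroup.mk : Kˣ → Kˣ ⧸ sqG Kˣ) '' (evenOff R K T : Set Kˣ)).Finite := by
  have h1 := relIndex_sq_evenOff (R := R) (K := K) hT
  haveI : ((sqG Kˣ).subgroupOf (evenOff R K T)).FiniteIndex := ⟨h1⟩
  haveI : Finite (evenOff R K T ⧸ (sqG Kˣ).subgroupOf (evenOff R K T)) := inferInstance
  let F : (evenOff R K T ⧸ (sqG Kˣ).subgroupOf (evenOff R K T)) → Kˣ ⧸ sqG Kˣ :=
    fun x => QuotientGroup.mk (x.out : evenOff R K T).1
  refine (Set.finite_range F).subset ?_
  rintro _ ⟨b, hb, rfl⟩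
  refine ⟨QuotientGroup.mk ⟨b, hb⟩, ?_⟩
  change (QuotientGroup.mk _ : Kˣ ⧸ sqG Kˣ) = QuotientGroup.mk b
  rw [QuotientGroup.eq]
  have h2 := QuotientGroup.eq.mp (QuotientGroup.out_eq' (QuotientGroup.mk (⟨b, hb⟩ : evenOff R K T) :
    evenOff R K T ⧸ (sqG Kˣ).subgroupOf (evenOff R K T)))
  rw [Subgroup.mem_subgroupOf] at h2
  exact h2

/-- the exponent and the valuation -/
theorem valuation_eq_exp_cnt (v : HeightOneSpectrum R) (b : Kˣ) :
    v.valuation K (b : K) = WithZero.exp (-(cnt K v b)) := by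
  classical
  have key : ∀ (r : R) (hr : algebraMap R K r ≠ 0),
      v.valuation K (algebraMap R K r) = WithZero.exp (-(cnt K v (Units.mk0 _ hr))) := by
    intro r hr
    have hr0 : r ≠ 0 := by rintro rfl; exact hr (map_zero _)
    rw [valuation_of_algebraMap, intValuation_if_neg v hr0, cnt]
    congr 2
    rw [Units.val_mk0, ← coeIdeal_span_singleton, count_coe]
    rw [Ne, Ideal.zero_eq_bot, Ideal.span_singleton_eq_bot]
    exact hr0
  obtain ⟨r, s, hs, hb⟩ := IsFractionRing.div_surjective (A := R) (b : K)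
  have hs0 : algebraMap R K s ≠ 0 := IsFractionRing.to_map_ne_zero_of_mem_nonZeroDivisors hs
  have hr0 : algebraMap R K r ≠ 0 := by
    intro h
    rw [h, zero_div] at hb
    exact b.ne_zero hb.symm
  have hbu : b * Units.mk0 _ hs0 = Units.mk0 _ hr0 := by
    apply Units.ext
    rw [Units.val_mul, Units.val_mk0, Units.val_mk0, ← hb, div_mul_cancel₀ _ hs0]
  have h1 := key r hr0
  have h2 := key s hs0
  rw [← hbu, cnt_mul] at h1
  have h3 : algebraMap R K r = (b : K) * algebraMap R K s := by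
    rw [← hb, div_mul_cancel₀ _ hs0]
  rw [h3, map_mul, h2, neg_add, WithZero.exp_add] at h1
  exact mul_right_cancel₀ WithZero.exp_ne_zero h1

lemma even_cnt_of_valuation {v : HeightOneSpectrum R} {b c : Kˣ}
    (h : v.valuation K (b : K) = v.valuation K (c : K) ^ 2) : Even (cnt K v b) := by
  rw [valuation_eq_exp_cnt, valuation_eq_exp_cnt, ← WithZero.exp_nsmul] at h
  have h1 := WithZero.exp_injective h
  refine ⟨cnt K v c, ?_⟩
  rw [two_nsmul] at h1
  linarith

end Selmer

end Fermat.Agent.WMW
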