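import Mathlib
import Fermat.Agent.WMW.Selmer
import Fermat.Agent.H12.Hilbert90
import Fermat.Agent.H12.InertiaVal

set_option autoImplicit false
set_option linter.style.haveILetI false
set_option linter.unusedSectionVars false

/-!
# Finiteness of the quadratic characters unramified outside a finite set
-/

noncomputable section

namespace Fermat.Agent.WMW

open IsDedekindDomain HeightOneSpectrum Fermat.Agent.H05 Fermat.Agent.H09 Fermat.Agent.H12
open scoped nonZeroDivisors NumberField Pointwise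

section Ram

variable {L : Type*} [Field L] [CharZero L] [IsGalois ℚ L]

/-- almost all inertia groups fix a given algebraic integer -/
theorem exists_finset_fix_int (α : L) (hα : IsIntegral ℤ α) :
    ∃ T : Finset ℕ, ∀ p : ℕ, p.Prime → p ∉ T → ∀ A : ValuationSubring L, A.LiesOverPrime p →
      ∀ σ ∈ A.inertiaSubgroupIn ℚ, σ α = α := by
  classical
  -- the conjugates
  let C : Finset L := ((minpoly ℚ α).aroots L).toFinset
  have hαQ : IsIntegral ℚ α := Algebra.IsIntegral.isIntegral α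
  have hC : ∀ σ : L ≃ₐ[ℚ] L, σ α ∈ C := by
    intro σ
    rw [Multiset.mem_toFinset, Polynomial.mem_aroots]
    refine ⟨minpoly.ne_zero hαQ, ?_⟩
    have h1 : Polynomial.aeval (σ α) (minpoly ℚ α) = σ (Polynomial.aeval α (minpoly ℚ α)) := by
      exact Polynomial.aeval_algHom_apply (σ : L →ₐ[ℚ] L) α (minpoly ℚ α)
    rw [h1, minpoly.aeval, map_zero]
  -- the integers
  have hn : ∀ β : L, β ≠ α → ∃ n : ℤ, n ≠ 0 ∧ IsIntegral ℤ ((n : L) * (β - α)⁻¹) := by
    intro β _
    have h1 : IsAlgebraic ℤ ((β - α)⁻¹) := by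
      have : IsAlgebraic ℚ ((β - α)⁻¹) := Algebra.IsAlgebraic.isAlgebraic _
      exact (IsFractionRing.isAlgebraic_iff ℤ ℚ L).mpr this
    obtain ⟨n, hn0, hn⟩ := h1.exists_integral_multiple
    refine ⟨n, hn0, ?_⟩
    rwa [zsmul_eq_mul] at hn
  choose! n hn0 hn1 using hn
  refine ⟨C.biUnion fun β => (n β).natAbs.primeFactors, fun p hp hpT A hA σ hσ => ?_⟩
  by_contra hne
  have hβ := hC σ
  apply hpT
  rw [Finset.mem_biUnion]
  refine ⟨σ α, hβ, ?_⟩
  rw [Nat.mem_primeFactors]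
  refine ⟨hp, ?_, Int.natAbs_ne_zero.mpr (hn0 _ hne)⟩
  have hαA : α ∈ A := mem_of_isIntegral A hα
  have h1 : A.valuation (σ α - α) < 1 :=
    val_sub_lt_one_of_inertia hσ ((A.valuation_le_one_iff α).mpr hαA)
  have h2 : A.valuation ((n (σ α) : L) * (σ α - α)⁻¹) ≤ 1 :=
    (A.valuation_le_one_iff _).mpr (mem_of_isIntegral A (hn1 _ hne))
  have h3 : (n (σ α) : L) = (n (σ α) : L) * (σ α - α)⁻¹ * (σ α - α) := by
    rw [inv_mul_cancel_right₀ (sub_ne_zero.mpr hne)]
  have h4 : A.valuation (n (σ α) : L) < 1 := by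
    rw [h3, map_mul, mul_comm]
    exact mul_lt_one_of_lt_of_le h1 h2
  rw [val_intCast_lt_one_iff hp hA] at h4
  exact Int.natCast_dvd.mp h4

theorem exists_finset_fix (α : L) :
    ∃ T : Finset ℕ, ∀ p : ℕ, p.Prime → p ∉ T → ∀ A : ValuationSubring L, A.LiesOverPrime p →
      ∀ σ ∈ A.inertiaSubgroupIn ℚ, σ α = α := by
  have h1 : IsAlgebraic ℤ α := by
    have : IsAlgebraic ℚ α := Algebra.IsAlgebraic.isAlgebraic _
    exact (IsFractionRing.isAlgebraic_iff ℤ ℚ L).mpr this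
  obtain ⟨n, hn0, hn⟩ := h1.exists_integral_multiple
  obtain ⟨T, hT⟩ := exists_finset_fix_int _ hn
  refine ⟨T, fun p hp hpT A hA σ hσ => ?_⟩
  have h2 := hT p hp hpT A hA σ hσ
  rw [zsmul_eq_mul, map_mul, map_intCast] at h2
  exact mul_left_cancel₀ (Int.cast_ne_zero.mpr hn0) h2

/-- **an open subgroup contains almost all inertia groups** -/
theorem exists_finset_inertia_le (H : Subgroup (L ≃ₐ[ℚ] L))
    (hH : IsOpen (H : Set (L ≃ₐ[ℚ] L))) :
    ∃ T : Finset ℕ, ∀ p : ℕ, p.Prime → p ∉ T → ∀ A : ValuationSubring L, A.LiesOverPrime p →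
      A.inertiaSubgroupIn ℚ ≤ H := by
  classical
  have h1 : (H : Set (L ≃ₐ[ℚ] L)) ∈ nhds (1 : L ≃ₐ[ℚ] L) := hH.mem_nhds (one_mem H)
  obtain ⟨E, hEfin, hEU⟩ := (krullTopology_mem_nhds_one_iff ℚ L _).mp h1
  haveI : FiniteDimensional ℚ E := hEfin
  obtain ⟨s, hs⟩ := Submodule.fg_top (Subalgebra.toSubmodule E.toSubalgebra) |>.mp
    (Module.Finite.fg_top (R := ℚ) (M := E))
  choose T hT using fun α : L => exists_finset_fix α
  refine ⟨s.biUnion T, fun p hp hpT A hA σ hσ => hEU ?_⟩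
  rw [SetLike.mem_coe, IntermediateField.mem_fixingSubgroup_iff]
  intro x hx
  have hx2 : x ∈ Submodule.span ℚ (s : Set L) := by rw [hs]; exact hx
  refine Submodule.span_induction (p := fun y _ => σ y = y) ?_ ?_ ?_ ?_ hx2
  · intro y hy
    exact hT y p hp (fun h => hpT (Finset.mem_biUnion.mpr ⟨y, hy, h⟩)) A hA σ hσ
  · exact map_zero σ
  · intro y z _ _ hy hz
    rw [map_add, hy, hz]
  · intro c y _ hy
    rw [map_rat_smul, hy]

end Ram

section Place

variable {L : Type*} [Field L] [CharZero L] [IsGalois ℚ L]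

/-- places above a prime ideal of a number field -/
theorem exists_place_over (K : IntermediateField ℚ L) [NumberField K]
    (v : HeightOneSpectrum (𝓞 K)) :
    ∃ A : ValuationSubring L, (∀ x : 𝓞 K, x ∈ v.asIdeal → A.valuation ((x : K) : L) < 1) ∧
      ∀ x : 𝓞 K, x ∉ v.asIdeal → A.valuation ((x : K) : L) = 1 := by
  let f : 𝓞 K →+* L := (algebraMap K L).comp (algebraMap (𝓞 K) K)
  have hf : Function.Injective f := (algebraMap K L).injective.comp
    (FaithfulSMul.algebraMap_injective (𝓞 K) K)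
  let e : 𝓞 K ≃+* f.range := RingEquiv.ofBijective f.rangeRestrict
    ⟨fun x y h => by
      have h' : (f.rangeRestrict x : L) = f.rangeRestrict y := by rw [h]
      exact hf h', f.rangeRestrict_surjective⟩
  let I : Ideal f.range := v.asIdeal.comap (e.symm : f.range →+* 𝓞 K)
  have hI : I ≠ ⊤ := by
    intro h
    rw [Ideal.eq_top_iff_one, Ideal.mem_comap, map_one] at h
    exact v.isPrime.ne_top ((Ideal.eq_top_iff_one _).mpr h)
  obtain ⟨A, hA1, hA2⟩ := Ideal.image_subset_nonunits_valuationSubring I hI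
  have h1 : ∀ x : 𝓞 K, x ∈ v.asIdeal → A.valuation ((x : K) : L) < 1 := by
    intro x hx
    rw [← ValuationSubring.mem_nonunits_iff]
    refine hA2 ⟨e x, ?_, rfl⟩
    change (e.symm : f.range →+* 𝓞 K) (e x) ∈ v.asIdeal
    simpa using hx
  have h0 : ∀ x : 𝓞 K, A.valuation ((x : K) : L) ≤ 1 := by
    intro x
    rw [A.valuation_le_one_iff]
    exact hA1 (⟨x, rfl⟩ : f x ∈ f.range)
  refine ⟨A, h1, fun x hx => le_antisymm (h0 x) ?_⟩
  by_contra hlt
  rw [not_le] at hlt
  obtain ⟨y, hy⟩ := Ideal.IsMaximal.exists_inv v.isMaximal hx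
  obtain ⟨z, hz, hyz⟩ := hy
  have h3 : (1 : L) = ((y : K) : L) * ((x : K) : L) + ((z : K) : L) := by
    have := congrArg f hyz
    rw [map_one, map_add, map_mul] at this
    exact this.symm
  have h4 : A.valuation (1 : L) < 1 := by
    rw [h3]
    refine lt_of_le_of_lt (A.valuation.map_add _ _) (max_lt ?_ (h1 z hz))
    rw [map_mul, mul_comm]
    exact mul_lt_one_of_lt_of_le hlt (h0 y)
  rw [map_one] at h4
  exact lt_irrefl _ h4

variable {K : IntermediateField ℚ L} [NumberField K] {v : HeightOneSpectrum (𝓞 K)}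
  {A : ValuationSubring L}

/-- units at the place are units at the prime -/
theorem valuation_eq_one (h1 : ∀ x : 𝓞 K, x ∈ v.asIdeal → A.valuation ((x : K) : L) < 1)
    (h2 : ∀ x : 𝓞 K, x ∉ v.asIdeal → A.valuation ((x : K) : L) = 1) {z : K}
    (hz : A.valuation (z : L) = 1) : v.valuation K z = 1 := by
  have key : ∀ z : K, A.valuation (z : L) = 1 → v.valuation K z ≤ 1 → v.valuation K z = 1 := by
    intro z hz hle
    obtain ⟨a, d, had⟩ := exists_primeCompl_mul_eq_of_integer v z hle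
    have e1 : A.valuation ((a : K) : L) = 1 := by
      have h3 : (z : L) * (((d : 𝓞 K) : K) : L) = ((a : K) : L) :=
        congrArg (fun t : K => (t : L)) had
      rw [← h3, map_mul, hz, h2 _ d.2, mul_one]
    have e2 : a ∉ v.asIdeal := fun h => (h1 a h).ne e1
    have e3 : v.valuation K (algebraMap (𝓞 K) K a) = 1 := (valuation_eq_one_iff_notMem v).mpr e2
    have e4 : v.valuation K (algebraMap (𝓞 K) K d) = 1 := (valuation_eq_one_iff_notMem v).mpr d.2
    rw [← had, map_mul, e4, mul_one] at e3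
    exact e3
  rcases le_total (v.valuation K z) 1 with h | h
  · exact key z hz h
  · have hz' : A.valuation ((z⁻¹ : K) : L) = 1 := by
      change A.valuation ((z : L)⁻¹) = 1
      rw [map_inv₀, hz, inv_one]
    have h3 : v.valuation K z⁻¹ ≤ 1 := by
      rw [map_inv₀]
      exact inv_le_one_of_one_le₀ h
    have h4 := key z⁻¹ hz' h3
    rw [map_inv₀, inv_eq_one] at h4
    exact h4

end Place

section Main

variable {L : Type*} [Field L] [CharZero L] [IsGalois ℚ L]

/-- the sign -/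
def sgn (L : Type*) [Field L] (x : Multiplicative (ZMod 2)) : L := if x = 1 then 1 else -1

lemma sgn_one : sgn L 1 = 1 := if_pos rfl

lemma sgn_mul (x y : Multiplicative (ZMod 2)) : sgn L (x * y) = sgn L x * sgn L y := by
  have h : ∀ z : Multiplicative (ZMod 2), z = 1 ∨ z = Multiplicative.ofAdd 1 := by decide
  rcases h x with rfl | rfl
  · rw [one_mul, sgn_one, one_mul]
  · rcases h y with rfl | rfl
    · rw [mul_one, sgn_one, mul_one]
    · have e1 : (Multiplicative.ofAdd 1 : Multiplicative (ZMod 2)) * Multiplicative.ofAdd 1 = 1 := by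
        decide
      have e2 : sgn L (Multiplicative.ofAdd 1) = -1 := if_neg (by decide)
      rw [e1, e2, sgn_one]
      ring

lemma sgn_ne_zero (x : Multiplicative (ZMod 2)) : sgn L x ≠ 0 := by
  unfold sgn
  split_ifs
  · exact one_ne_zero
  · exact neg_ne_zero.mpr one_ne_zero

lemma sgn_sq (x : Multiplicative (ZMod 2)) : sgn L x ^ 2 = 1 := by
  unfold sgn
  split_ifs <;> norm_num

lemma sgn_rat (x : Multiplicative (ZMod 2)) : ∀ σ : L ≃ₐ[ℚ] L, σ (sgn L x) = sgn L x := by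
  intro σ
  unfold sgn
  split_ifs <;> simp

lemma sgn_injective : Function.Injective (sgn L) := by
  intro x y h
  have h2 : ∀ z : Multiplicative (ZMod 2), z = 1 ∨ z = Multiplicative.ofAdd 1 := by decide
  have e2 : sgn L (Multiplicative.ofAdd 1) = -1 := if_neg (by decide)
  have h3 : (1 : L) ≠ -1 := by
    intro h
    have : (2 : L) = 0 := by linear_combination h
    exact two_ne_zero this
  rcases h2 x with rfl | rfl <;> rcases h2 y with rfl | rfl
  · rfl
  · rw [sgn_one, e2] at h; exact absurd h h3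
  · rw [sgn_one, e2] at h; exact absurd h.symm h3
  · rfl

/-- the unramified characters -/
def unrChars (H : Subgroup (L ≃ₐ[ℚ] L)) (S : Finset ℕ) : Set (H →* Multiplicative (ZMod 2)) :=
  {χ | IsOpen (χ.ker : Set H) ∧ ∀ p : ℕ, p.Prime → p ∉ S → ∀ A : ValuationSubring L,
    A.LiesOverPrime p → ∀ σ : H, (σ : L ≃ₐ[ℚ] L) ∈ A.inertiaSubgroupIn ℚ → χ σ = 1}

/-- a Kummer generator -/
theorem exists_kummer (H : Subgroup (L ≃ₐ[ℚ] L)) (hH : IsOpen (H : Set (L ≃ₐ[ℚ] L)))
    (χ : H →* Multiplicative (ZMod 2)) (hχ : IsOpen (χ.ker : Set H)) :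
    ∃ u : L, u ≠ 0 ∧ ∀ σ : H, (σ : L ≃ₐ[ℚ] L) u = sgn L (χ σ) * u := by
  classical
  haveI : Algebra.IsAlgebraic ℚ L := inferInstance
  let c : (L ≃ₐ[ℚ] L) → L := fun σ => if h : σ ∈ H then sgn L (χ ⟨σ, h⟩) else 1
  have hc : ∀ σ : H, c σ = sgn L (χ σ) := fun σ => dif_pos σ.2
  let U : Subgroup (L ≃ₐ[ℚ] L) := χ.ker.map H.subtype
  have hU : IsOpen (U : Set (L ≃ₐ[ℚ] L)) := by
    rw [Subgroup.coe_map]
    exact hH.isOpenMap_subtype_val _ hχ
  obtain ⟨u, hu0, hu⟩ := hilbert90' H c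
    (fun σ hσ => by rw [hc ⟨σ, hσ⟩]; exact sgn_ne_zero _)
    (fun σ hσ τ hτ => by
      have h1 := hc (⟨σ, hσ⟩ * ⟨τ, hτ⟩)
      rw [map_mul, sgn_mul, ← hc, ← hc] at h1
      have h2 : c τ = sgn L (χ ⟨τ, hτ⟩) := hc ⟨τ, hτ⟩
      have h3 : σ (c τ) = c τ := by rw [h2, sgn_rat]
      rw [h3]
      exact h1)
    U hU (fun σ hσ hσU => by
      obtain ⟨τ, hτ, rfl⟩ := hσU
      have h1 := hc τ
      rw [MonoidHom.mem_ker.mp hτ, sgn_one] at h1
      exact h1)
  exact ⟨u, hu0, fun σ => by rw [hu σ σ.2, hc]⟩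

/-- **(W) finiteness of the quadratic characters unramified outside `S`.** -/
theorem finite_unrChars (H : Subgroup (L ≃ₐ[ℚ] L)) (hH : IsOpen (H : Set (L ≃ₐ[ℚ] L)))
    (S : Finset ℕ) : (unrChars H S).Finite := by
  classical
  obtain ⟨T, hT⟩ := exists_finset_inertia_le H hH
  let K : IntermediateField ℚ L := IntermediateField.fixedField H
  have hKH : K.fixingSubgroup = H :=
    InfiniteGalois.fixingSubgroup_fixedField ⟨H, H.isClosed_of_isOpen hH⟩
  haveI hKfin : FiniteDimensional ℚ K := by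
    rw [← InfiniteGalois.isOpen_iff_finite, hKH]
    exact hH
  haveI : NumberField K := { to_charZero := inferInstance, to_finiteDimensional := hKfin }
  let bad : Set (HeightOneSpectrum (𝓞 K)) := ⋃ p ∈ {p ∈ S ∪ T | p.Prime},
    {v | v.asIdeal ∣ Ideal.span {((p : ℕ) : 𝓞 K)}}
  have hbad : bad.Finite := by
    refine Set.Finite.biUnion (Finset.finite_toSet _) fun p hp => ?_
    refine Ideal.finite_factors ?_
    rw [Ne, Ideal.zero_eq_bot, Ideal.span_singleton_eq_bot, Nat.cast_eq_zero]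
    exact (Finset.mem_filter.mp hp).2.ne_zero
  -- the Kummer map
  have hK1 : ∀ χ : unrChars H S, ∃ u : L, u ≠ 0 ∧ ∀ σ : H, (σ : L ≃ₐ[ℚ] L) u = sgn L (χ.1 σ) * u :=
    fun χ => exists_kummer H hH χ.1 χ.2.1
  choose u hu0 hu using hK1
  have hb : ∀ χ : unrChars H S, (u χ) ^ 2 ∈ K := by
    intro χ
    rw [IntermediateField.mem_fixedField_iff]
    intro σ hσ
    rw [map_pow, hu χ ⟨σ, hσ⟩, mul_pow, sgn_sq, one_mul]
  have hb0 : ∀ χ : unrChars H S, (⟨(u χ) ^ 2, hb χ⟩ : K) ≠ 0 := by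
    intro χ h
    exact pow_ne_zero 2 (hu0 χ) (congrArg Subtype.val h)
  let b : unrChars H S → Kˣ := fun χ => Units.mk0 ⟨(u χ) ^ 2, hb χ⟩ (hb0 χ)
  -- it is even outside `bad`
  have heven : ∀ χ, b χ ∈ evenOff (𝓞 K) K bad := by
    intro χ v hv
    obtain ⟨A, hA1, hA2⟩ := exists_place_over K v
    -- the prime below
    obtain ⟨p, hp, hpv⟩ : ∃ p : ℕ, p.Prime ∧ (p : 𝓞 K) ∈ v.asIdeal := by
      have h1 : v.asIdeal.under ℤ ≠ ⊥ := Ideal.IsIntegral.comap_ne_bot ℤ v.ne_bot
      have h2 : (v.asIdeal.under ℤ).IsPrime := inferInstance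
      obtain ⟨m, hm⟩ := (inferInstance : (v.asIdeal.under ℤ).IsPrincipal)
      rw [← Ideal.span] at hm
      have hm0 : m ≠ 0 := by
        rintro rfl
        apply h1
        rw [hm]
        simp
      rw [hm, Ideal.span_singleton_prime hm0] at h2
      refine ⟨m.natAbs, Int.prime_iff_natAbs_prime.mp h2, ?_⟩
      have h3 : (m.natAbs : ℤ) ∈ v.asIdeal.under ℤ := by
        rw [hm, Ideal.mem_span_singleton]
        exact Int.dvd_natAbs.mpr dvd_rfl
      rw [Ideal.mem_comap] at h3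
      simpa using h3
    have hAp : A.LiesOverPrime p := by
      have h1 := hA1 _ hpv
      change (p : L) ∈ A.nonunits
      rw [ValuationSubring.mem_nonunits_iff]
      simpa using h1
    have hpST : p ∉ S ∪ T := by
      intro h
      apply hv
      refine Set.mem_biUnion (Finset.mem_filter.mpr ⟨h, hp⟩) ?_
      change v.asIdeal ∣ _
      rw [Ideal.dvd_span_singleton]
      exact hpv
    rw [Finset.mem_union, not_or] at hpST
    obtain ⟨n, hn⟩ := exists_valuation_eq_zpow hp hAp (u χ) (hu0 χ) (by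
      intro σ hσ
      have hσH := hT p hp hpST.2 A hAp hσ
      rw [hu χ ⟨σ, hσH⟩, χ.2.2 p hp hpST.1 A hAp ⟨σ, hσH⟩ hσ, sgn_one, one_mul])
    have hp0 : (p : K) ≠ 0 := Nat.cast_ne_zero.mpr hp.ne_zero
    have hp0' : (p : L) ≠ 0 := Nat.cast_ne_zero.mpr hp.ne_zero
    let c : Kˣ := Units.mk0 ((p : K) ^ n) (zpow_ne_zero n hp0)
    refine even_cnt_of_valuation (c := c) ?_
    have hz : A.valuation ((((b χ : K) / (c : K) ^ 2 : K)) : L) = 1 := by
      have e0 : algebraMap K L ((p : K) ^ n) = (p : L) ^ n := by rw [map_zpow₀, map_natCast]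
      have e1 : ((((b χ : K) / (c : K) ^ 2 : K)) : L) = (u χ) ^ 2 / ((p : L) ^ n) ^ 2 := by
        change algebraMap K L ((b χ : K) / (c : K) ^ 2) = _
        rw [map_div₀, map_pow, ← e0]
        rfl
      rw [e1, map_div₀, map_pow, map_pow, map_zpow₀, hn, div_self]
      exact pow_ne_zero 2 (zpow_ne_zero n ((map_ne_zero _).mpr hp0'))
    have h1 := valuation_eq_one hA1 hA2 hz
    rw [map_div₀, map_pow] at h1
    have hc0 : v.valuation K (c : K) ≠ 0 := (map_ne_zero _).mpr c.ne_zero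
    exact (div_eq_one_iff_eq (pow_ne_zero 2 hc0)).mp h1
  -- injectivity
  haveI : Group.FG (𝓞 K)ˣ := Group.fg_iff_monoid_fg.mpr inferInstance
  have hfin := finite_image_evenOff (R := 𝓞 K) (K := K) hbad
  haveI : Finite ((QuotientGroup.mk : Kˣ → Kˣ ⧸ sqG Kˣ) '' (evenOff (𝓞 K) K bad : Set Kˣ)) := hfin
  let F : unrChars H S → (QuotientGroup.mk : Kˣ → Kˣ ⧸ sqG Kˣ) '' (evenOff (𝓞 K) K bad : Set Kˣ) :=
    fun χ => ⟨QuotientGroup.mk (b χ), ⟨b χ, heven χ, rfl⟩⟩
  have hF : Function.Injective F := by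
    intro χ χ' h
    have h1 : (QuotientGroup.mk (b χ) : Kˣ ⧸ sqG Kˣ) = QuotientGroup.mk (b χ') :=
      congrArg Subtype.val h
    rw [QuotientGroup.eq] at h1
    obtain ⟨c, hc⟩ := h1
    have h2 : b χ' = b χ * c ^ 2 := by
      have h3 : c ^ 2 = (b χ)⁻¹ * b χ' := hc
      rw [h3, mul_inv_cancel_left]
    have h3 : (u χ') ^ 2 = (u χ * ((c : K) : L)) ^ 2 := by
      have h4 := congrArg (fun t : Kˣ => ((t : K) : L)) h2
      simp only [b] at h4
      rw [mul_pow]
      simpa using h4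
    have hcfix : ∀ σ : H, (σ : L ≃ₐ[ℚ] L) ((c : K) : L) = ((c : K) : L) := by
      intro σ
      have h5 := (c : K).2
      rw [IntermediateField.mem_fixedField_iff] at h5
      exact h5 σ σ.2
    apply Subtype.ext
    refine MonoidHom.ext fun σ => ?_
    apply sgn_injective (L := L)
    have hu' := hu χ' σ
    have h6 : (σ : L ≃ₐ[ℚ] L) (u χ') = sgn L (χ.1 σ) * u χ' := by
      rcases sq_eq_sq_iff_eq_or_eq_neg.mp h3 with h | h
      · rw [h, map_mul, hu, hcfix, mul_assoc]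
      · rw [h, map_neg, map_mul, hu, hcfix]
        ring
    rw [h6] at hu'
    exact mul_right_cancel₀ (hu0 χ') hu'
  exact Set.finite_coe_iff.mp (Finite.of_injective F hF)

/-- the case of the algebraic closure of `ℚ` -/
theorem finite_quadratic (H : Subgroup (AlgebraicClosure ℚ ≃ₐ[ℚ] AlgebraicClosure ℚ))
    (hH : IsOpen (H : Set (AlgebraicClosure ℚ ≃ₐ[ℚ] AlgebraicClosure ℚ))) (S : Finset ℕ) :
    {χ : H →* Multiplicative (ZMod 2) | IsOpen (χ.ker : Set H) ∧
      ∀ p : ℕ, p.Prime → p ∉ S → ∀ A : ValuationSubring (AlgebraicClosure ℚ), A.LiesOverPrime p →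
        ∀ σ : H, (σ : AlgebraicClosure ℚ ≃ₐ[ℚ] AlgebraicClosure ℚ) ∈ A.inertiaSubgroupIn ℚ →
          χ σ = 1}.Finite :=
  finite_unrChars H hH S

end Main

end Fermat.Agent.WMW
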