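import Fermat.Agent.WP.Divisible
import Fermat.Agent.H28.Final
import Fermat.Agent.H12.OpenStab
import Fermat.Agent.H02F.ModHopf
import Fermat.Agent.WMW.Finite

/-!
# Weak Mordell-Weil: the descent part
-/

set_option autoImplicit false
set_option linter.unusedSectionVars false
set_option linter.style.haveILetI false

noncomputable section

namespace Fermat.Agent.WMW

section Abs

variable {G J : Type*} [Group G] [AddCommGroup J] [DistribMulAction G J]

/-- the `2`-torsion -/
abbrev T2 (J : Type*) [AddCommGroup J] : AddSubgroup J := (nsmulAddMonoidHom (α := J) 2).ker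

theorem mem_T2 {x : J} : x ∈ T2 J ↔ 2 • x = 0 := by
  rw [AddMonoidHom.mem_ker]; rfl

theorem T2_sep {t : T2 J} (h : ∀ l : T2 J →+ ZMod 2, l t = 0) : t = 0 := by
  letI : Module (ZMod 2) (T2 J) := AddCommGroup.zmodModule (n := 2) fun x =>
    Subtype.ext (mem_T2.mp x.2)
  rw [← Module.forall_dual_apply_eq_zero_iff (ZMod 2)]
  intro φ
  exact h φ.toAddMonoidHom

/-- the cocycle attached to a half -/
def dd (y : J) (hy : ∀ σ : G, σ • (2 • y) = 2 • y) (σ : G) : T2 J :=
  ⟨σ • y - y, mem_T2.mpr (by rw [nsmul_sub, ← hy σ, smul_comm, hy σ, sub_self])⟩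

theorem coe_dd (y : J) (hy : ∀ σ : G, σ • (2 • y) = 2 • y) (σ : G) :
    (dd y hy σ : J) = σ • y - y := rfl

variable (H : Subgroup G) (hH : ∀ σ ∈ H, ∀ x : J, 2 • x = 0 → σ • x = x)

/-- the homomorphism on `H` -/
def cc (y : J) (hy : ∀ σ : G, σ • (2 • y) = 2 • y) (l : T2 J →+ ZMod 2) :
    H →* Multiplicative (ZMod 2) where
  toFun σ := Multiplicative.ofAdd (l (dd y hy (σ : G)))
  map_one' := by
    have : dd y hy ((1 : H) : G) = 0 := Subtype.ext (by
      rw [coe_dd, Subgroup.coe_one, one_smul, sub_self]; rfl)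
    rw [this, map_zero]; rfl
  map_mul' σ τ := by
    have h1 : (σ : G) • (dd y hy (τ : G) : J) = dd y hy (τ : G) :=
      hH σ σ.2 _ (mem_T2.mp (dd y hy (τ : G)).2)
    have : dd y hy ((σ * τ : H) : G) = dd y hy (σ : G) + dd y hy (τ : G) := by
      apply Subtype.ext
      rw [AddSubgroup.coe_add, ← h1, coe_dd, coe_dd, coe_dd, Subgroup.coe_mul, mul_smul, smul_sub]
      abel
    rw [this, map_add, ofAdd_add]

/-- **abstract weak Mordell-Weil** -/
theorem finiteIndex_of [H.FiniteIndex] (hT : Finite (T2 J))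
    (hdiv : ∀ x : J, ∃ y : J, 2 • y = x)
    {X : Set (H →* Multiplicative (ZMod 2))} (hX : X.Finite)
    (hXy : ∀ (y : J) (hy : ∀ σ : G, σ • (2 • y) = 2 • y) (l : T2 J →+ ZMod 2),
      cc H hH y hy l ∈ X) :
    (nsmulAddMonoidHom (α := ↥(FixedPoints.addSubgroup G J)) 2).range.FiniteIndex := by
  classical
  choose y hy using hdiv
  have hx : ∀ x : ↥(FixedPoints.addSubgroup G J), ∀ σ : G,
      σ • (2 • y (x : J)) = 2 • y (x : J) := by
    intro x σ
    rw [hy]
    exact x.2 σ
  haveI : Finite X := hX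
  haveI : Finite (T2 J →+ ZMod 2) := DFunLike.finite _
  haveI : Finite (G ⧸ H) := Subgroup.finite_quotient_of_finiteIndex
  let f : ↥(FixedPoints.addSubgroup G J) → ((T2 J →+ ZMod 2) → X) × ((G ⧸ H) → T2 J) := fun x =>
    (fun l => ⟨cc H hH (y (x : J)) (hx x) l, hXy _ _ _⟩,
      fun q => dd (y (x : J)) (hx x) q.out)
  have hf : ∀ x x', f x = f x' →
      x - x' ∈ (nsmulAddMonoidHom (α := ↥(FixedPoints.addSubgroup G J)) 2).range := by
    intro x x' hxx
    have h1 : ∀ σ ∈ H, dd (y (x : J)) (hx x) σ = dd (y (x' : J)) (hx x') σ := by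
      intro σ hσ
      rw [← sub_eq_zero]
      apply T2_sep
      intro l
      have h2 : (f x).1 l = (f x').1 l := by rw [hxx]
      have h3 := congrArg Subtype.val h2
      have h4 := DFunLike.congr_fun h3 ⟨σ, hσ⟩
      have h5 : l (dd (y (x : J)) (hx x) σ) = l (dd (y (x' : J)) (hx x') σ) := h4
      rw [map_sub, h5, sub_self]
    have h2 : ∀ σ : G, dd (y (x : J)) (hx x) σ = dd (y (x' : J)) (hx x') σ := by
      intro σ
      set g : G := (QuotientGroup.mk σ : G ⧸ H).out with hg
      have hgq : (QuotientGroup.mk g : G ⧸ H) = QuotientGroup.mk σ := by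
        rw [hg]; exact Quotient.out_eq' _
      have hh : g⁻¹ * σ ∈ H := QuotientGroup.eq.mp hgq
      have h3 : dd (y (x : J)) (hx x) g = dd (y (x' : J)) (hx x') g := by
        have : (f x).2 (QuotientGroup.mk σ) = (f x').2 (QuotientGroup.mk σ) := by rw [hxx]
        exact this
      have h4 := h1 _ hh
      have key : ∀ z : J, σ • z - z = g • ((g⁻¹ * σ) • z - z) + (g • z - z) := by
        intro z
        rw [smul_sub, ← mul_smul, mul_inv_cancel_left]
        abel
      apply Subtype.ext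
      rw [coe_dd, coe_dd, key, key]
      have h5 := congrArg Subtype.val h3
      have h6 := congrArg Subtype.val h4
      rw [coe_dd, coe_dd] at h5 h6
      rw [h5, h6]
    refine ⟨⟨y x - y x', fun σ => ?_⟩, ?_⟩
    · have h3 := congrArg Subtype.val (h2 σ)
      rw [coe_dd, coe_dd] at h3
      rw [smul_sub]
      rw [sub_eq_sub_iff_add_eq_add] at h3 ⊢
      rw [h3, add_comm]
    · apply Subtype.ext
      change 2 • (y (x : J) - y (x' : J)) = (x : J) - (x' : J)
      rw [nsmul_sub, hy, hy]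
  have : Finite (↥(FixedPoints.addSubgroup G J) ⧸
      (nsmulAddMonoidHom (α := ↥(FixedPoints.addSubgroup G J)) 2).range) := by
    apply Finite.of_injective (fun q => f q.out)
    intro q q' hqq
    have h1 := hf _ _ hqq
    rw [← QuotientAddGroup.out_eq' q, ← QuotientAddGroup.out_eq' q', QuotientAddGroup.eq]
    rw [neg_add_eq_sub, ← neg_sub]
    exact neg_mem h1
  exact AddSubgroup.finiteIndex_of_finite_quotient

end Abs

open AlgebraicCurve ModularCurve

local notation "GQ" => AlgebraicClosure ℚ ≃ₐ[ℚ] AlgebraicClosure ℚ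

theorem finite_T2 (N : ℕ) [NeZero N] : Finite (T2 (JZero N)) := by
  have h := H02F.finite_torsionBy N (m := 2) (by norm_num)
  let f : T2 (JZero N) → Submodule.torsionBy ℤ (JZero N) ((2 : ℕ) : ℤ) := fun x =>
    ⟨(x : JZero N), (Submodule.mem_torsionBy_iff _ _).mpr (by
      rw [Nat.cast_smul_eq_nsmul]; exact mem_T2.mp x.2)⟩
  exact Finite.of_injective f fun x y hxy => Subtype.ext (congrArg Subtype.val hxy)

/-- **weak Mordell-Weil for `J_0(N)`** -/
theorem finite_quotient (N : ℕ) [NeZero N] :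
    (nsmulAddMonoidHom (α := ↥(FixedPoints.addSubgroup
      ((AlgebraicClosure ℚ) ≃ₐ[ℚ] (AlgebraicClosure ℚ)) (JZero N))) 2).range.FiniteIndex := by
  classical
  haveI := finite_T2 N
  choose U hU hU' using H12.exists_open_pic0 (modularFunctionFieldFull N)
  let H : Subgroup GQ := ⨅ x : T2 (JZero N), U (x : JZero N)
  have hHo : IsOpen (H : Set GQ) := by
    rw [Subgroup.coe_iInf]
    exact isOpen_iInter_of_finite fun w => hU w
  have hH : ∀ σ ∈ H, ∀ x : JZero N, 2 • x = 0 → σ • x = x := by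
    intro σ hσ x hx
    rw [Subgroup.mem_iInf] at hσ
    exact hU' x σ (hσ ⟨x, mem_T2.mpr hx⟩)
  haveI : Finite (GQ ⧸ H) := Subgroup.quotient_finite_of_isOpen H hHo
  haveI : H.FiniteIndex := Subgroup.finiteIndex_of_finite_quotient
  refine finiteIndex_of H hH (finite_T2 N) (fun x => WP.divisible_JZero (by norm_num) x)
    (finite_quadratic H hHo (2 * N).primeFactors) ?_
  intro y hy l
  refine ⟨?_, ?_⟩
  · -- open kernel
    have h1 : IsOpen (((U y).subgroupOf H : Subgroup H) : Set H) := by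
      exact (hU y).preimage continuous_subtype_val
    refine Subgroup.isOpen_mono ?_ h1
    intro σ hσ
    rw [MonoidHom.mem_ker]
    have h2 : dd y hy (σ : GQ) = 0 := Subtype.ext (by
      rw [coe_dd, hU' y σ (Subgroup.mem_subgroupOf.mp hσ), sub_self]; rfl)
    change Multiplicative.ofAdd (l (dd y hy (σ : GQ))) = 1
    rw [h2, map_zero]; rfl
  · intro p hp hpS A hA σ hσ
    have hpN : ¬ p ∣ N := fun h => hpS (Nat.mem_primeFactors.mpr
      ⟨hp, h.mul_left 2, by have := NeZero.ne N; positivity⟩)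
    have hp2 : ¬ p ∣ 2 := fun h => hpS (Nat.mem_primeFactors.mpr
      ⟨hp, h.mul_right N, by have := NeZero.ne N; positivity⟩)
    obtain ⟨K, hK⟩ := H28.exists_redKernel N hp hpN A hA
    have h2 : dd y hy (σ : GQ) = 0 := Subtype.ext
      (hK.torsion 2 hp2 _ (hK.inertia _ hσ y) (mem_T2.mp (dd y hy (σ : GQ)).2))
    change Multiplicative.ofAdd (l (dd y hy (σ : GQ))) = 1
    rw [h2, map_zero]; rfl

end Fermat.Agent.WMW
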